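/-
S13, package S-ABS (helper76), part A1: the two subgroups of the Galois group attached to a
submodule `N` of the `n`-torsion: `fixSub N` (acts trivially on `N`) and `cofixSub N`
(acts trivially on the quotient by `N`).  Both are normal when `N` is Galois-stable and open in
the Krull topology when the torsion is finite and the extension is algebraic.
-/
import Mathlib
import Fermat.Prelude.Def_FLTPrelim_CofixedLine
import Fermat.Prelude.Def_FLTPrelim_Ramification

set_option autoImplicit false

open WeierstrassCurve WeierstrassCurve.Affine WeierstrassCurve.Affine.Point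

namespace Fermat.Agent.S13.H76

section general

variable {R : Type*} {S : Type*} {K : Type*} [CommRing R] [Field S] [Field K]
  [DecidableEq K] [Algebra R S] [Algebra R K] [Algebra S K] [IsScalarTower R S K]
  {W' : Affine R} {n : ℕ}

theorem coe_smul_torsion (σ : K ≃ₐ[S] K) (x : Submodule.torsionBy ℤ (W'⁄K).Point n) :
    ((σ • x : Submodule.torsionBy ℤ (W'⁄K).Point n) : (W'⁄K).Point) = σ • (x : (W'⁄K).Point) :=
  rfl

theorem smul_sub_torsion (σ : K ≃ₐ[S] K) (x y : Submodule.torsionBy ℤ (W'⁄K).Point n) :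
    σ • (x - y) = σ • x - σ • y := by
  rw [sub_eq_add_neg, smul_add, smul_neg, ← sub_eq_add_neg]

/-- The subgroup of the Galois group fixing the submodule `N` pointwise. -/
def fixSub (N : Submodule (ZMod n) (Submodule.torsionBy ℤ (W'⁄K).Point n)) :
    Subgroup (K ≃ₐ[S] K) where
  carrier := {σ | ∀ x ∈ N, σ • x = x}
  one_mem' := fun x _ => one_smul _ x
  mul_mem' := by
    intro σ τ hσ hτ x hx
    rw [mul_smul, hτ x hx, hσ x hx]
  inv_mem' := by
    intro σ hσ x hx
    have h := hσ x hx
    calc σ⁻¹ • x = σ⁻¹ • (σ • x) := by rw [h]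
      _ = x := inv_smul_smul σ x

theorem mem_fixSub {N : Submodule (ZMod n) (Submodule.torsionBy ℤ (W'⁄K).Point n)}
    {σ : K ≃ₐ[S] K} : σ ∈ fixSub (S := S) N ↔ ∀ x ∈ N, σ • x = x :=
  Iff.rfl

/-- The subgroup of the Galois group acting trivially on the quotient by `N`. -/
def cofixSub (N : Submodule (ZMod n) (Submodule.torsionBy ℤ (W'⁄K).Point n)) :
    Subgroup (K ≃ₐ[S] K) where
  carrier := {σ | ∀ x, σ • x - x ∈ N}
  one_mem' := fun x => by simp
  mul_mem' := by
    intro σ τ hσ hτ x
    have h1 : σ • (τ • x - x) - (τ • x - x) ∈ N := hσ _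
    have h2 : τ • x - x ∈ N := hτ x
    have h3 : σ • x - x ∈ N := hσ x
    have e : (σ * τ) • x - x = (σ • (τ • x - x) - (τ • x - x)) + (τ • x - x) + (σ • x - x) := by
      rw [mul_smul, smul_sub_torsion]; abel
    rw [e]
    exact N.add_mem (N.add_mem h1 h2) h3
  inv_mem' := by
    intro σ hσ x
    have h := hσ (σ⁻¹ • x)
    rw [smul_inv_smul] at h
    have e : σ⁻¹ • x - x = -(x - σ⁻¹ • x) := by abel
    rw [e]
    exact N.neg_mem h

theorem mem_cofixSub {N : Submodule (ZMod n) (Submodule.torsionBy ℤ (W'⁄K).Point n)}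
    {σ : K ≃ₐ[S] K} : σ ∈ cofixSub (S := S) N ↔ ∀ x, σ • x - x ∈ N :=
  Iff.rfl

theorem fixSub_normal {N : Submodule (ZMod n) (Submodule.torsionBy ℤ (W'⁄K).Point n)}
    (hN : IsGaloisStable S N) : (fixSub (S := S) N).Normal := by
  constructor
  intro σ hσ τ x hx
  have h1 : τ⁻¹ • x ∈ N := hN τ⁻¹ x hx
  rw [mul_smul, mul_smul, hσ _ h1, smul_inv_smul]

theorem cofixSub_normal {N : Submodule (ZMod n) (Submodule.torsionBy ℤ (W'⁄K).Point n)}
    (hN : IsGaloisStable S N) : (cofixSub (S := S) N).Normal := by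
  constructor
  intro σ hσ τ x
  have h1 : σ • (τ⁻¹ • x) - τ⁻¹ • x ∈ N := hσ _
  have h2 := hN τ _ h1
  rw [smul_sub_torsion, smul_inv_smul] at h2
  rw [mul_smul, mul_smul]
  exact h2

/-- The stabiliser of a point of the curve over an algebraic extension is open. -/
theorem isOpen_stabilizer_point [Algebra.IsAlgebraic S K] (P : (W'⁄K).Point) :
    IsOpen (MulAction.stabilizer (K ≃ₐ[S] K) P : Set (K ≃ₐ[S] K)) := by
  rcases P with _ | ⟨x, y, h⟩
  · have : MulAction.stabilizer (K ≃ₐ[S] K) (Point.zero : (W'⁄K).Point) = ⊤ := by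
      ext σ
      simp only [MulAction.mem_stabilizer_iff, Subgroup.mem_top, iff_true]
      rfl
    rw [this]
    exact isOpen_univ
  · have hfd : FiniteDimensional S (IntermediateField.adjoin S ({x, y} : Set K)) := by
      apply IntermediateField.finiteDimensional_adjoin
      intro z _
      exact (Algebra.IsAlgebraic.isAlgebraic z).isIntegral
    refine Subgroup.isOpen_mono (H₁ := (IntermediateField.adjoin S ({x, y} : Set K)).fixingSubgroup)
      ?_ (IntermediateField.fixingSubgroup_isOpen _)
    intro σ hσ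
    rw [IntermediateField.mem_fixingSubgroup_iff] at hσ
    have hx : σ x = x := hσ x (IntermediateField.subset_adjoin S _ (by simp))
    have hy : σ y = y := hσ y (IntermediateField.subset_adjoin S _ (by simp))
    rw [MulAction.mem_stabilizer_iff, algEquiv_smul_def, map_some]
    rw [Point.some.injEq]
    exact ⟨hx, hy⟩

/-- The kernel of the Galois action on the (finite) `n`-torsion is open. -/
theorem isOpen_torsion_kernel [Algebra.IsAlgebraic S K]
    [Finite (Submodule.torsionBy ℤ (W'⁄K).Point n)] :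
    IsOpen ((⨅ x : Submodule.torsionBy ℤ (W'⁄K).Point n,
      MulAction.stabilizer (K ≃ₐ[S] K) (x : (W'⁄K).Point) : Subgroup (K ≃ₐ[S] K)) :
        Set (K ≃ₐ[S] K)) := by
  rw [Subgroup.coe_iInf]
  exact isOpen_iInter_of_finite fun x => isOpen_stabilizer_point _

theorem isOpen_fixSub [Algebra.IsAlgebraic S K] [Finite (Submodule.torsionBy ℤ (W'⁄K).Point n)]
    (N : Submodule (ZMod n) (Submodule.torsionBy ℤ (W'⁄K).Point n)) :
    IsOpen (fixSub (S := S) N : Set (K ≃ₐ[S] K)) := by
  refine Subgroup.isOpen_mono ?_ (isOpen_torsion_kernel (S := S) (W' := W') (n := n))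
  intro σ hσ x _
  rw [Subgroup.mem_iInf] at hσ
  have := hσ x
  rw [MulAction.mem_stabilizer_iff] at this
  exact Subtype.ext this

theorem isOpen_cofixSub [Algebra.IsAlgebraic S K] [Finite (Submodule.torsionBy ℤ (W'⁄K).Point n)]
    (N : Submodule (ZMod n) (Submodule.torsionBy ℤ (W'⁄K).Point n)) :
    IsOpen (cofixSub (S := S) N : Set (K ≃ₐ[S] K)) := by
  refine Subgroup.isOpen_mono ?_ (isOpen_torsion_kernel (S := S) (W' := W') (n := n))
  intro σ hσ x
  rw [Subgroup.mem_iInf] at hσ
  have := hσ x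
  rw [MulAction.mem_stabilizer_iff] at this
  have e : σ • x = x := Subtype.ext this
  rw [e, sub_self]
  exact N.zero_mem

end general

end Fermat.Agent.S13.H76
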