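/-
S13, package S-ABS (helper76), part A3: the abstract Serre assembly.

* `hasCofixedLine_of_local`: from finiteness/nontriviality of the `p`-torsion, the global
  (Minkowski) statement, the local statements ("for every stable line `N`, either over every
  prime some inertia group fixes `N` pointwise, or over every prime some inertia group acts
  trivially on the quotient by `N`") and the absence of a pointwise fixed stable line, conclude
  `¬ GaloisRepIsIrreducible → HasGaloisStableCofixedLine`.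
* `result_of_skeleton`: the same for the Frey curve with all inputs in the exact shapes of the
  S13 skeleton (the predicate `LH` is the skeleton's `LocalHyp`, kept abstract here).
-/
import Fermat.Agent.S13.H76.GaloisSub
import Fermat.Agent.S05.Main
import Fermat.Agent.S05.H98.VarChangeTorsion

set_option autoImplicit false

open WeierstrassCurve WeierstrassCurve.Affine WeierstrassCurve.Affine.Point

namespace Fermat.Agent.S13.H76

/-- Abstract Serre assembly. -/
theorem hasCofixedLine_of_local {W : Affine ℚ} {p : ℕ}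
    (hnt : Nontrivial (Submodule.torsionBy ℤ (W⁄(AlgebraicClosure ℚ)).Point p))
    (hfin : Finite (Submodule.torsionBy ℤ (W⁄(AlgebraicClosure ℚ)).Point p))
    (hglob : ∀ H : Subgroup (AlgebraicClosure ℚ ≃ₐ[ℚ] AlgebraicClosure ℚ), H.Normal →
      IsOpen (H : Set (AlgebraicClosure ℚ ≃ₐ[ℚ] AlgebraicClosure ℚ)) →
      (∀ q : ℕ, q.Prime → ∃ A : ValuationSubring (AlgebraicClosure ℚ),
        A.LiesOverPrime q ∧ A.inertiaSubgroupIn ℚ ≤ H) → H = ⊤)
    (hloc : ∀ N : Submodule (ZMod p) (Submodule.torsionBy ℤ (W⁄(AlgebraicClosure ℚ)).Point p),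
      IsGaloisStable ℚ N → N ≠ ⊥ → N ≠ ⊤ →
      (∀ q : ℕ, q.Prime → ∃ A : ValuationSubring (AlgebraicClosure ℚ),
        A.LiesOverPrime q ∧ A.inertiaSubgroupIn ℚ ≤ fixSub N) ∨
      (∀ q : ℕ, q.Prime → ∃ A : ValuationSubring (AlgebraicClosure ℚ),
        A.LiesOverPrime q ∧ A.inertiaSubgroupIn ℚ ≤ cofixSub N))
    (hIV : ∀ N : Submodule (ZMod p) (Submodule.torsionBy ℤ (W⁄(AlgebraicClosure ℚ)).Point p),
      IsGaloisStable ℚ N → N ≠ ⊥ → N ≠ ⊤ → fixSub (S := ℚ) N ≠ ⊤)
    (hred : ¬ GaloisRepIsIrreducible (K := AlgebraicClosure ℚ) ℚ W p) :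
    HasGaloisStableCofixedLine (K := AlgebraicClosure ℚ) ℚ W p := by
  have hex : ∃ N : Submodule (ZMod p) (Submodule.torsionBy ℤ (W⁄(AlgebraicClosure ℚ)).Point p),
      IsGaloisStable ℚ N ∧ N ≠ ⊥ ∧ N ≠ ⊤ := by
    by_contra hcon
    apply hred
    refine ⟨hnt, fun N hN => ?_⟩
    by_contra h
    rw [not_or] at h
    exact hcon ⟨N, hN, h.1, h.2⟩
  obtain ⟨N, hN, h0, h1⟩ := hex
  have : Algebra.IsAlgebraic ℚ (AlgebraicClosure ℚ) := AlgebraicClosure.isAlgebraic ℚ
  rcases hloc N hN h0 h1 with h | h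
  · exact absurd (hglob _ (fixSub_normal hN) (isOpen_fixSub N) h) (hIV N hN h0 h1)
  · have htop := hglob _ (cofixSub_normal hN) (isOpen_cofixSub N) h
    refine ⟨N, hN, h0, h1, fun σ x => ?_⟩
    have hσ : σ ∈ cofixSub (S := ℚ) N := htop ▸ Subgroup.mem_top σ
    exact hσ x

/-- The Serre assembly for the Frey curve, from the S13 skeleton interfaces.  `LH` is the
skeleton's `LocalHyp` (it is only passed from the `FR` statements to the `LC` statements). -/
theorem result_of_skeleton (P : FreyPackage)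
    (LH : Affine ℚ → ValuationSubring (AlgebraicClosure ℚ) → Prop)
    (hT1 : ∃ R : (P.freyCurve⁄(AlgebraicClosure ℚ)).Point, R ≠ 0 ∧ P.p • R = 0)
    (hT1' : Set.Finite {R : (P.freyCurve⁄(AlgebraicClosure ℚ)).Point | P.p • R = 0})
    (hD0 : ∀ q : ℕ, q.Prime → ∃ A : ValuationSubring (AlgebraicClosure ℚ), A.LiesOverPrime q)
    (hD2 : ∀ H : Subgroup (AlgebraicClosure ℚ ≃ₐ[ℚ] AlgebraicClosure ℚ), H.Normal →
      IsOpen (H : Set (AlgebraicClosure ℚ ≃ₐ[ℚ] AlgebraicClosure ℚ)) →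
      (∀ q : ℕ, q.Prime → ∃ A : ValuationSubring (AlgebraicClosure ℚ),
        A.LiesOverPrime q ∧ A.inertiaSubgroupIn ℚ ≤ H) → H = ⊤)
    (hIV : ¬ ∃ R : (P.freyCurve⁄(AlgebraicClosure ℚ)).Point,
      R ≠ 0 ∧ P.p • R = 0 ∧ ∀ σ : AlgebraicClosure ℚ ≃ₐ[ℚ] AlgebraicClosure ℚ, σ • R = R)
    (hΔ : P.freyCurve.Δ ≠ 0) (hΔ' : (S05.freyTranslate P • P.freyCurve).Δ ≠ 0)
    (hFR1 : ∀ A : ValuationSubring (AlgebraicClosure ℚ), A.LiesOverPrime 2 → LH P.freyCurve A)
    (hFR2 : ∀ A : ValuationSubring (AlgebraicClosure ℚ), A.LiesOverPrime P.p →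
      LH P.freyCurve A ∨ LH (S05.freyTranslate P • P.freyCurve) A)
    (hLC1 : ∀ W₀ : Affine ℚ, W₀.Δ ≠ 0 → ∀ A : ValuationSubring (AlgebraicClosure ℚ), LH W₀ A →
      ∀ N : Submodule (ZMod P.p) (Submodule.torsionBy ℤ (W₀⁄(AlgebraicClosure ℚ)).Point P.p),
      IsGaloisStable ℚ N → N ≠ ⊥ → N ≠ ⊤ →
      (∀ σ ∈ A.inertiaSubgroupIn ℚ, ∀ x ∈ N, σ • x = x) ∨
      (∀ σ ∈ A.inertiaSubgroupIn ℚ,
        ∀ x : Submodule.torsionBy ℤ (W₀⁄(AlgebraicClosure ℚ)).Point P.p, σ • x - x ∈ N))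
    (hLC2 : ∀ W₀ : Affine ℚ, W₀.Δ ≠ 0 → ∀ A : ValuationSubring (AlgebraicClosure ℚ), LH W₀ A →
      ((P.p : ℕ) : AlgebraicClosure ℚ) ∉ A.nonunits →
      ∀ N : Submodule (ZMod P.p) (Submodule.torsionBy ℤ (W₀⁄(AlgebraicClosure ℚ)).Point P.p),
      IsGaloisStable ℚ N → N ≠ ⊥ → N ≠ ⊤ →
      (∀ σ ∈ A.inertiaSubgroupIn ℚ, ∀ x ∈ N, σ • x = x) ∧
      (∀ σ ∈ A.inertiaSubgroupIn ℚ,
        ∀ x : Submodule.torsionBy ℤ (W₀⁄(AlgebraicClosure ℚ)).Point P.p, σ • x - x ∈ N))
    (hred : ¬ GaloisRepIsIrreducible (K := AlgebraicClosure ℚ) ℚ P.freyCurve P.p) :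
    HasGaloisStableCofixedLine (K := AlgebraicClosure ℚ) ℚ P.freyCurve P.p := by
  have hp2 : P.p ≠ 2 := by have := P.hp5; omega
  -- nontriviality and finiteness of the torsion
  have hnt : Nontrivial (Submodule.torsionBy ℤ (P.freyCurve⁄(AlgebraicClosure ℚ)).Point P.p) := by
    obtain ⟨R, hR0, hR⟩ := hT1
    have hmem : R ∈ Submodule.torsionBy ℤ (P.freyCurve⁄(AlgebraicClosure ℚ)).Point P.p := by
      rw [Submodule.mem_torsionBy_iff, natCast_zsmul]; exact hR
    exact ⟨⟨⟨R, hmem⟩, 0, fun h => hR0 (congrArg Subtype.val h)⟩⟩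
  have hfin : Finite (Submodule.torsionBy ℤ (P.freyCurve⁄(AlgebraicClosure ℚ)).Point P.p) := by
    have hsub : ((Submodule.torsionBy ℤ (P.freyCurve⁄(AlgebraicClosure ℚ)).Point P.p :
        Submodule ℤ (P.freyCurve⁄(AlgebraicClosure ℚ)).Point) :
        Set (P.freyCurve⁄(AlgebraicClosure ℚ)).Point) ⊆
        {R : (P.freyCurve⁄(AlgebraicClosure ℚ)).Point | P.p • R = 0} := by
      intro R hR
      have hR' : R ∈ Submodule.torsionBy ℤ (P.freyCurve⁄(AlgebraicClosure ℚ)).Point P.p := hR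
      rw [Submodule.mem_torsionBy_iff, natCast_zsmul] at hR'
      exact hR'
    exact Set.finite_coe_iff.mpr (hT1'.subset hsub)
  refine hasCofixedLine_of_local hnt hfin hD2 ?_ ?_ hred
  · -- local statements
    intro N hN h0 h1
    -- the prime `p`
    obtain ⟨Ap, hAp⟩ := hD0 P.p P.pp
    have hp : (∀ σ ∈ Ap.inertiaSubgroupIn ℚ, ∀ x ∈ N, σ • x = x) ∨
        (∀ σ ∈ Ap.inertiaSubgroupIn ℚ,
          ∀ x : Submodule.torsionBy ℤ (P.freyCurve⁄(AlgebraicClosure ℚ)).Point P.p,
            σ • x - x ∈ N) := by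
      rcases hFR2 Ap hAp with hLH | hLH
      · exact hLC1 _ hΔ Ap hLH N hN h0 h1
      · -- transport through the translate
        set e := S05.H98.torsionLinearEquiv (K := AlgebraicClosure ℚ) (S05.freyTranslate P)
          P.freyCurve P.p with he
        have hN' : IsGaloisStable ℚ (N.map e.toLinearMap) :=
          S05.H98.isGaloisStable_map (S := ℚ) _ _ _ hN
        have h0' : N.map e.toLinearMap ≠ ⊥ := fun h => h0 (Submodule.map_eq_bot_iff.mp h)
        have h1' : N.map e.toLinearMap ≠ ⊤ := by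
          intro h
          apply h1
          rw [eq_top_iff] at h ⊢
          intro x _
          obtain ⟨y, hy, hxy⟩ := h (Submodule.mem_top (x := e x))
          rwa [← e.injective hxy]
        rcases hLC1 _ hΔ' Ap hLH _ hN' h0' h1' with h | h
        · left
          intro σ hσ x hx
          have := h σ hσ (e x) ⟨x, hx, rfl⟩
          rw [← S05.H98.torsionLinearEquiv_smul (S := ℚ)] at this
          exact e.injective this
        · right
          intro σ hσ x
          obtain ⟨y, hy, hxy⟩ := h σ hσ (e x)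
          rw [← S05.H98.torsionLinearEquiv_smul (S := ℚ), ← map_sub] at hxy
          have := e.injective hxy
          rwa [← this]
    -- the other primes
    have hq : ∀ q : ℕ, q.Prime → q ≠ P.p → ∃ A : ValuationSubring (AlgebraicClosure ℚ),
        A.LiesOverPrime q ∧ (∀ σ ∈ A.inertiaSubgroupIn ℚ, ∀ x ∈ N, σ • x = x) ∧
        (∀ σ ∈ A.inertiaSubgroupIn ℚ,
          ∀ x : Submodule.torsionBy ℤ (P.freyCurve⁄(AlgebraicClosure ℚ)).Point P.p,
            σ • x - x ∈ N) := by
      intro q hqp hne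
      obtain ⟨A, hA⟩ := hD0 q hqp
      refine ⟨A, hA, ?_⟩
      by_cases hq2 : q = 2
      · subst hq2
        have hpA : ((P.p : ℕ) : AlgebraicClosure ℚ) ∉ A.nonunits := by
          have h2A : A.valuation ((2 : ℕ) : AlgebraicClosure ℚ) < 1 := A.mem_nonunits_iff.mp hA
          have hv : A.valuation ((P.p : ℕ) : AlgebraicClosure ℚ) = 1 :=
            S05.val_natCast_eq_one A Nat.prime_two h2A
              (by rw [Nat.prime_dvd_prime_iff_eq Nat.prime_two P.pp]; exact fun h => hp2 h.symm)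
          rw [A.mem_nonunits_iff, hv]
          exact lt_irrefl _
        exact hLC2 _ hΔ A (hFR1 A hA) hpA N hN h0 h1
      · have hfix : ∀ σ ∈ A.inertiaSubgroupIn ℚ,
            ∀ x : Submodule.torsionBy ℤ (P.freyCurve⁄(AlgebraicClosure ℚ)).Point P.p,
              σ • x = x := by
          intro σ hσ x
          apply Subtype.ext
          have hx : P.p • x.1 = 0 := by
            have h := x.2
            rw [Submodule.mem_torsionBy_iff, natCast_zsmul] at h
            exact h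
          exact S05.frey_fixed P hqp hq2 hne A hA σ hσ x.1 hx
        refine ⟨fun σ hσ x _ => hfix σ hσ x, fun σ hσ x => ?_⟩
        rw [hfix σ hσ x, sub_self]
        exact N.zero_mem
    rcases hp with hp | hp
    · left
      intro q hqp
      by_cases hne : q = P.p
      · subst hne
        exact ⟨Ap, hAp, fun σ hσ => hp σ hσ⟩
      · obtain ⟨A, hA, hA1, -⟩ := hq q hqp hne
        exact ⟨A, hA, fun σ hσ => hA1 σ hσ⟩
    · right
      intro q hqp
      by_cases hne : q = P.p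
      · subst hne
        exact ⟨Ap, hAp, fun σ hσ => hp σ hσ⟩
      · obtain ⟨A, hA, -, hA2⟩ := hq q hqp hne
        exact ⟨A, hA, fun σ hσ => hA2 σ hσ⟩
  · -- no pointwise fixed line
    intro N hN h0 h1 htop
    apply hIV
    obtain ⟨x, hx, hx0⟩ := Submodule.exists_mem_ne_zero_of_ne_bot h0
    refine ⟨x.1, fun h => hx0 (Subtype.ext h), ?_, fun σ => ?_⟩
    · have h := x.2
      rw [Submodule.mem_torsionBy_iff, natCast_zsmul] at h
      exact h
    · have hσ : σ ∈ fixSub (S := ℚ) N := htop ▸ Subgroup.mem_top σ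
      exact congrArg Subtype.val (hσ x hx)

end Fermat.Agent.S13.H76
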