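/-
S13, package S-ABS (helper76), part A2: pure linear algebra over `ZMod p`.
A space with at most `p ^ 2` elements has dimension at most two; lines in such a space;
the filtration dichotomy used for the inertia groups at `2` and at `p`.
-/
import Mathlib

set_option autoImplicit false

namespace Fermat.Agent.S13.H76

section field

variable {F : Type*} [Field F] {V : Type*} [AddCommGroup V] [Module F V]

/-- In a space of dimension at most two, a nonzero subspace contained in a proper subspace is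
equal to it. -/
theorem eq_of_le_of_ne_bot_of_ne_top [Module.Finite F V] (hfin : Module.finrank F V ≤ 2)
    {N M : Submodule F V} (hN : N ≠ ⊥) (hM : M ≠ ⊤) (h : N ≤ M) : N = M := by
  have h1 : 0 < Module.finrank F N := by
    rw [Module.finrank_pos_iff (R := F)]
    exact (Submodule.nontrivial_iff_ne_bot).mpr hN
  have h2 : Module.finrank F M < Module.finrank F V := Submodule.finrank_lt hM
  exact Submodule.eq_of_le_of_finrank_le h (by omega)

/-- Two distinct proper subspaces of a space of dimension at most two meet trivially. -/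
theorem inf_eq_bot_of_ne [Module.Finite F V] (hfin : Module.finrank F V ≤ 2)
    {N M : Submodule F V} (hN : N ≠ ⊤) (hM : M ≠ ⊤) (hne : N ≠ M) : N ⊓ M = ⊥ := by
  by_contra h
  have e1 : N ⊓ M = N := eq_of_le_of_ne_bot_of_ne_top hfin h hN inf_le_left
  have e2 : N ⊓ M = M := eq_of_le_of_ne_bot_of_ne_top hfin h hM inf_le_right
  exact hne (e1.symm.trans e2)

/-- A square-zero endomorphism of a space of dimension at most two that preserves a line `N`
kills `N` and has image in `N`. -/
theorem sq_zero_line [Module.Finite F V] (hfin : Module.finrank F V ≤ 2)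
    {N : Submodule F V} (hN0 : N ≠ ⊥) (hN1 : N ≠ ⊤) (D : V →ₗ[F] V)
    (hD2 : ∀ x, D (D x) = 0) (hDN : ∀ x ∈ N, D x ∈ N) :
    (∀ x ∈ N, D x = 0) ∧ (∀ x, D x ∈ N) := by
  have hkill : ∀ x ∈ N, D x = 0 := by
    intro v hv
    by_contra hne
    have hspan : Submodule.span F {D v} = N := by
      apply eq_of_le_of_ne_bot_of_ne_top hfin _ hN1
      · rw [Submodule.span_singleton_le_iff_mem]; exact hDN v hv
      · rw [Ne, Submodule.span_singleton_eq_bot]; exact hne
    have hv' : v ∈ Submodule.span F {D v} := hspan ▸ hv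
    obtain ⟨c, hc⟩ := Submodule.mem_span_singleton.mp hv'
    apply hne
    rw [← hc, map_smul, hD2, smul_zero]
  refine ⟨hkill, fun x => ?_⟩
  by_cases hker : LinearMap.ker D = ⊤
  · have : D x = 0 := by
      have hx : x ∈ LinearMap.ker D := hker ▸ Submodule.mem_top
      exact LinearMap.mem_ker.mp hx
    rw [this]; exact N.zero_mem
  · have hle : N ≤ LinearMap.ker D := fun v hv => LinearMap.mem_ker.mpr (hkill v hv)
    have heq : N = LinearMap.ker D := eq_of_le_of_ne_bot_of_ne_top hfin hN0 hker hle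
    rw [heq]
    exact LinearMap.mem_ker.mpr (hD2 x)

end field

section zmod

variable {p : ℕ} [Fact p.Prime] {V : Type*} [AddCommGroup V] [Module (ZMod p) V]

theorem finrank_le_two_of_card_le [Finite V] (hcard : Nat.card V ≤ p ^ 2) :
    Module.finrank (ZMod p) V ≤ 2 := by
  have h := Module.natCard_eq_pow_finrank (K := ZMod p) (V := V)
  rw [Nat.card_zmod] at h
  rw [h] at hcard
  exact (Nat.pow_le_pow_iff_right (Fact.out : p.Prime).one_lt).mp hcard

/-- **Filtration dichotomy.**  `V` a `ZMod p`-space with at most `p ^ 2` elements, `N` a line,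
`V1 ≤ V0` subspaces with `V1 ≠ ⊤`, and `I` a set of additive endomorphisms preserving `N`,
trivial on `V / V0` and on `V0 / V1`.  Then either all of `I` fixes `N` pointwise, or all of `I`
acts trivially on `V / N`. -/
theorem filtration_dichotomy [Finite V] (hcard : Nat.card V ≤ p ^ 2)
    {N V0 V1 : Submodule (ZMod p) V} (hN0 : N ≠ ⊥) (hN1 : N ≠ ⊤) (h10 : V1 ≤ V0) (hV1 : V1 ≠ ⊤)
    (I : Set (V →+ V)) (hIN : ∀ s ∈ I, ∀ x ∈ N, s x ∈ N)
    (hI0 : ∀ s ∈ I, ∀ x, s x - x ∈ V0) (hI1 : ∀ s ∈ I, ∀ x ∈ V0, s x - x ∈ V1) :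
    (∀ s ∈ I, ∀ x ∈ N, s x = x) ∨ (∀ s ∈ I, ∀ x, s x - x ∈ N) := by
  have hfin := finrank_le_two_of_card_le hcard
  by_cases hbot : V1 = ⊥
  · -- unipotent case
    left
    intro s hs x hx
    have key := sq_zero_line hfin hN0 hN1 (s.toZModLinearMap p - LinearMap.id : V →ₗ[ZMod p] V)
      (fun x => by
        have h1 : s x - x ∈ V0 := hI0 s hs x
        have h2 : s (s x - x) - (s x - x) ∈ V1 := hI1 s hs _ h1
        rw [hbot, Submodule.mem_bot] at h2
        simpa using h2)
      (fun x hx => by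
        simpa using N.sub_mem (hIN s hs x hx) hx)
    have := key.1 x hx
    simpa [sub_eq_zero] using this
  · -- `V1` is a line
    have hall : ∀ s ∈ I, ∀ x, s x - x ∈ V1 := by
      intro s hs x
      by_cases h0 : V0 = ⊤
      · exact hI1 s hs x (h0 ▸ Submodule.mem_top)
      · have : V1 = V0 := eq_of_le_of_ne_bot_of_ne_top hfin hbot h0 h10
        rw [this]; exact hI0 s hs x
    by_cases hNV : N = V1
    · right
      intro s hs x
      rw [hNV]; exact hall s hs x
    · left
      intro s hs x hx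
      have h1 : s x - x ∈ N ⊓ V1 := ⟨N.sub_mem (hIN s hs x hx) hx, hall s hs x⟩
      rw [inf_eq_bot_of_ne hfin hN1 hV1 hNV, Submodule.mem_bot, sub_eq_zero] at h1
      exact h1

/-- **Unipotent case** of the filtration dichotomy (`V1 = ⊥`): both conclusions hold. -/
theorem filtration_unipotent [Finite V] (hcard : Nat.card V ≤ p ^ 2)
    {N V0 : Submodule (ZMod p) V} (hN0 : N ≠ ⊥) (hN1 : N ≠ ⊤)
    (I : Set (V →+ V)) (hIN : ∀ s ∈ I, ∀ x ∈ N, s x ∈ N)
    (hI0 : ∀ s ∈ I, ∀ x, s x - x ∈ V0) (hI1 : ∀ s ∈ I, ∀ x ∈ V0, s x = x) :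
    (∀ s ∈ I, ∀ x ∈ N, s x = x) ∧ (∀ s ∈ I, ∀ x, s x - x ∈ N) := by
  have hfin := finrank_le_two_of_card_le hcard
  have key : ∀ s ∈ I, (∀ x ∈ N, (s.toZModLinearMap p - LinearMap.id : V →ₗ[ZMod p] V) x = 0) ∧
      (∀ x, (s.toZModLinearMap p - LinearMap.id : V →ₗ[ZMod p] V) x ∈ N) := by
    intro s hs
    refine sq_zero_line hfin hN0 hN1 (s.toZModLinearMap p - LinearMap.id : V →ₗ[ZMod p] V)
      (fun x => ?_) (fun x hx => ?_)
    · have h1 : s x - x ∈ V0 := hI0 s hs x
      have h2 : s (s x - x) = s x - x := hI1 s hs _ h1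
      simpa [sub_eq_zero] using h2
    · simpa using N.sub_mem (hIN s hs x hx) hx
  refine ⟨fun s hs x hx => ?_, fun s hs x => ?_⟩
  · have := (key s hs).1 x hx
    simpa [sub_eq_zero] using this
  · have := (key s hs).2 x
    simpa using this

end zmod

end Fermat.Agent.S13.H76
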