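/-
S13, helper76 (backup of package LC): the local statements `H86.LC1Statement p` and
`H86.LC2Statement p` from the filtration dichotomy (`H76.Dichotomy`), the branch lemma
(`H27.inE0_smul_sub_rat`), the torsion block (`H56`), torsion integrality (`S05.H60`) and the
three point-level leaves, which are taken as explicit hypotheses:

* `GoodLeaf`  : at good reduction, `σ • P - P ∈ E₁` for `σ` in inertia (all points `P`);
* `E0Leaf`    : in the multiplicative normal form, `σ • P - P ∈ E₁` for `P ∈ E₀`;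
* `IIILeaf p` : over `p`, not every `p`-torsion point lies in `E₁` when a stable line exists.
-/
import Fermat.Agent.S13.H76.Dichotomy
import Fermat.Agent.S13.H86.Transport
import Fermat.Agent.S13.H27.Branch
import Fermat.Agent.S13.H56.TorsionFinal
import Fermat.Agent.S05.H60.M3
import Fermat.Agent.S05.Good

set_option autoImplicit false

open WeierstrassCurve WeierstrassCurve.Affine WeierstrassCurve.Affine.Point

namespace Fermat.Agent.S13.H76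

open Fermat.Agent.S05

local notation "Qb" => AlgebraicClosure ℚ

/-- Leaf (c1): at good reduction, inertia moves every point inside the kernel of reduction. -/
def GoodLeaf : Prop :=
  ∀ (W₀ : Affine ℚ) (A : ValuationSubring Qb), algebraMap ℚ Qb W₀.a₁ ∈ A →
    algebraMap ℚ Qb W₀.a₂ ∈ A → algebraMap ℚ Qb W₀.a₃ ∈ A → algebraMap ℚ Qb W₀.a₄ ∈ A →
    algebraMap ℚ Qb W₀.a₆ ∈ A → A.valuation (algebraMap ℚ Qb W₀.Δ) = 1 →
    ∀ σ : Qb ≃ₐ[ℚ] Qb, σ ∈ A.inertiaSubgroupIn ℚ → ∀ P : (W₀⁄Qb).Point,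
      H60.InE1 A (σ • P - P)

/-- Leaf (c2): in the multiplicative normal form, inertia moves every point of `E₀` inside the
kernel of reduction. -/
def E0Leaf : Prop :=
  ∀ (W₀ : Affine ℚ) (A : ValuationSubring Qb), W₀.a₃ = 0 → W₀.a₆ = 0 →
    algebraMap ℚ Qb W₀.a₁ ∈ A → algebraMap ℚ Qb W₀.a₂ ∈ A →
    algebraMap ℚ Qb W₀.a₄ ∈ A.nonunits → algebraMap ℚ Qb W₀.b₂ ∉ A.nonunits →
    ∀ σ : Qb ≃ₐ[ℚ] Qb, σ ∈ A.inertiaSubgroupIn ℚ → ∀ P : (W₀⁄Qb).Point,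
      H31.InE0 A P → H60.InE1 A (σ • P - P)

/-- Leaf (b) = (III): over `p`, if there is a Galois-stable line then some `p`-torsion point is
not in the kernel of reduction (the statement of the skeleton's `exists_torsion_not_inE1`). -/
def IIILeaf (p : ℕ) : Prop :=
  ∀ (W₀ : Affine ℚ) (A : ValuationSubring Qb), (p : Qb) ∈ A.nonunits →
    Set.Finite {P : (W₀⁄Qb).Point | p • P = 0} →
    (∀ S : Finset Qb,
      (∀ ξ ∈ S, ξ ∉ A ∧ ∃ P : (W₀⁄Qb).Point, P ≠ 0 ∧ p • P = 0 ∧ xOf P = ξ) →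
        ∃ ε ∈ A, (p : Qb) = ε * ∏ ξ ∈ S, ξ⁻¹) →
    ∀ N : Submodule (ZMod p) (Submodule.torsionBy ℤ (W₀⁄Qb).Point p),
      IsGaloisStable ℚ N → N ≠ ⊥ → N ≠ ⊤ →
      ∃ x : Submodule.torsionBy ℤ (W₀⁄Qb).Point p, ¬ H60.InE1 A (x : (W₀⁄Qb).Point)

section

variable (W₀ : Affine ℚ) (p : ℕ) (A : ValuationSubring Qb)

/-- The `p`-torsion points in the kernel of reduction, as an additive subgroup. -/
noncomputable def torsE1 (ha₁ : algebraMap ℚ Qb W₀.a₁ ∈ A) (ha₂ : algebraMap ℚ Qb W₀.a₂ ∈ A)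
    (ha₃ : algebraMap ℚ Qb W₀.a₃ ∈ A) (ha₄ : algebraMap ℚ Qb W₀.a₄ ∈ A)
    (ha₆ : algebraMap ℚ Qb W₀.a₆ ∈ A) :
    AddSubgroup (Submodule.torsionBy ℤ (W₀⁄Qb).Point p) where
  carrier := {x | H60.InE1 A (x : (W₀⁄Qb).Point)}
  zero_mem' := H60.InE1.zero A
  add_mem' := fun {_ _} hx hy =>
    H60.InE1.add (W := W₀⁄Qb) A ha₁ ha₂ ha₃ ha₄ ha₆ hx hy
  neg_mem' := fun {_} hx => H60.InE1.neg A hx

/-- The `p`-torsion points in `E₀` (multiplicative normal form), as an additive subgroup. -/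
noncomputable def torsE0 (h₃ : W₀.a₃ = 0) (h₆ : W₀.a₆ = 0) (h₄ : algebraMap ℚ Qb W₀.a₄ ∈ A.nonunits)
    (hb₂ : algebraMap ℚ Qb W₀.b₂ ∈ A) :
    AddSubgroup (Submodule.torsionBy ℤ (W₀⁄Qb).Point p) where
  carrier := {x | H31.InE0 A (x : (W₀⁄Qb).Point)}
  zero_mem' := H31.InE0.zero A
  add_mem' := fun {_ _} hx hy => by
    have e₃ : (W₀⁄Qb).a₃ = 0 := by
      show algebraMap ℚ Qb W₀.a₃ = 0
      rw [h₃, _root_.map_zero]
    have e₆ : (W₀⁄Qb).a₆ = 0 := by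
      show algebraMap ℚ Qb W₀.a₆ = 0
      rw [h₆, _root_.map_zero]
    have eb₂ : (W₀⁄Qb).b₂ = algebraMap ℚ Qb W₀.b₂ :=
      WeierstrassCurve.map_b₂ W₀ (algebraMap ℚ Qb)
    exact H31.InE0.add (W := W₀⁄Qb) e₃ e₆ h₄ (eb₂ ▸ hb₂) hx hy
  neg_mem' := fun {_} hx => H31.InE0.neg hx

end

/-- `b₂` is integral when `a₁`, `a₂` are. -/
theorem b₂_mem (W₀ : Affine ℚ) (A : ValuationSubring Qb) (ha₁ : algebraMap ℚ Qb W₀.a₁ ∈ A)
    (ha₂ : algebraMap ℚ Qb W₀.a₂ ∈ A) : algebraMap ℚ Qb W₀.b₂ ∈ A := by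
  have e : algebraMap ℚ Qb W₀.b₂ =
      (algebraMap ℚ Qb W₀.a₁) ^ 2 + 4 * algebraMap ℚ Qb W₀.a₂ := by
    simp [WeierstrassCurve.b₂]
  rw [e]
  have h4 : (4 : Qb) ∈ A := by
    have : (4 : Qb) = ((4 : ℕ) : Qb) := by norm_num
    rw [this]; exact H31.natCast_mem A 4
  exact add_mem (pow_mem ha₁ 2) (mul_mem h4 ha₂)

/-- The torsion point `σ • P - P` is again `p`-torsion. -/
theorem nsmul_smul_sub (W₀ : Affine ℚ) {p : ℕ} (σ : Qb ≃ₐ[ℚ] Qb) {P : (W₀⁄Qb).Point}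
    (hP : p • P = 0) : p • (σ • P - P) = 0 := by
  rw [nsmul_sub, ← galois_smul_nsmul, hP, smul_zero (A := (W₀⁄Qb).Point) σ, sub_zero]

theorem nsmul_coe_torsion (W₀ : Affine ℚ) {p : ℕ}
    (x : Submodule.torsionBy ℤ (W₀⁄Qb).Point p) : p • (x : (W₀⁄Qb).Point) = 0 := by
  have h := x.2
  rw [Submodule.mem_torsionBy_iff, natCast_zsmul] at h
  exact h

/-- **LC2**: if `p` is a unit of `A`, inertia acts trivially on a stable line `N` and on the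
quotient by `N`. -/
theorem lc2_of_leaves {p : ℕ} (hp : p.Prime) (hp2 : p ≠ 2) (hgood : GoodLeaf) (hE0 : E0Leaf) :
    H86.LC2Statement p := by
  intro W₀ _ A hW hpA N hN hN0 hN1
  have : Fact p.Prime := ⟨hp⟩
  obtain ⟨ha₁, ha₂, ha₃, ha₄, ha₆, hred⟩ := hW
  obtain ⟨hfinV, hcard⟩ := H56.natCard_torsionBy_le (W₀⁄Qb) hp hp2
  have hpv : A.valuation (p : Qb) = 1 := (H31.val_one_iff A).mpr ⟨H31.natCast_mem A p, hpA⟩
  -- a torsion point moved inside `E₁` is fixed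
  have hfix : ∀ (σ : Qb ≃ₐ[ℚ] Qb) (x : Submodule.torsionBy ℤ (W₀⁄Qb).Point p),
      H60.InE1 A (σ • (x : (W₀⁄Qb).Point) - (x : (W₀⁄Qb).Point)) → σ • x = x := by
    intro σ x h
    apply Subtype.ext
    have h0 := H60.InE1.eq_zero_of_prime_nsmul (W := W₀⁄Qb) A ha₁ ha₂ ha₃ ha₄ ha₆ hp hp2 hpv h
      (nsmul_smul_sub W₀ σ (nsmul_coe_torsion W₀ x))
    exact sub_eq_zero.mp h0
  -- the set of additive maps induced by inertia
  set I : Set (Submodule.torsionBy ℤ (W₀⁄Qb).Point p →+ Submodule.torsionBy ℤ (W₀⁄Qb).Point p) :=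
    {s | ∃ σ ∈ A.inertiaSubgroupIn ℚ, s = DistribSMul.toAddMonoidHom _ σ} with hI
  have hIN : ∀ s ∈ I, ∀ x ∈ N, s x ∈ N := by
    rintro s ⟨σ, -, rfl⟩ x hx
    exact hN σ x hx
  have key : (∀ s ∈ I, ∀ x ∈ N, s x = x) ∧ (∀ s ∈ I, ∀ x, s x - x ∈ N) := by
    rcases hred with hΔ | ⟨h₃, h₆, h₄, hb₂⟩
    · refine filtration_unipotent (V0 := ⊤) hcard hN0 hN1 I hIN
        (fun _ _ _ => Submodule.mem_top) ?_
      rintro s ⟨σ, hσ, rfl⟩ x -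
      exact hfix σ x (hgood W₀ A ha₁ ha₂ ha₃ ha₄ ha₆ hΔ σ hσ _)
    · refine filtration_unipotent
        (V0 := AddSubgroup.toZModSubmodule p (torsE0 W₀ p A h₃ h₆ h₄ (b₂_mem W₀ A ha₁ ha₂)))
        hcard hN0 hN1 I hIN ?_ ?_
      · rintro s ⟨σ, hσ, rfl⟩ x
        exact H27.inE0_smul_sub_rat W₀ A h₃ h₆ ha₁ ha₂ h₄ hb₂ hσ hp hp2 (nsmul_coe_torsion W₀ x)
      · rintro s ⟨σ, hσ, rfl⟩ x hx
        exact hfix σ x (hE0 W₀ A h₃ h₆ ha₁ ha₂ h₄ hb₂ σ hσ _ hx)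
  exact ⟨fun σ hσ x hx => key.1 _ ⟨σ, hσ, rfl⟩ x hx, fun σ hσ x => key.2 _ ⟨σ, hσ, rfl⟩ x⟩

/-- **LC1**: the local dichotomy. -/
theorem lc1_of_leaves {p : ℕ} (hp : p.Prime) (hp2 : p ≠ 2) (hgood : GoodLeaf) (hE0 : E0Leaf)
    (hIII : IIILeaf p) : H86.LC1Statement p := by
  intro W₀ hΔ0 A hW N hN hN0 hN1
  by_cases hpA : (p : Qb) ∈ A.nonunits
  swap
  · exact Or.inl (lc2_of_leaves hp hp2 hgood hE0 W₀ hΔ0 A hW hpA N hN hN0 hN1).1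
  have : Fact p.Prime := ⟨hp⟩
  obtain ⟨ha₁, ha₂, ha₃, ha₄, ha₆, hred⟩ := hW
  obtain ⟨hfinV, hcard⟩ := H56.natCard_torsionBy_le (W₀⁄Qb) hp hp2
  -- (III): `V1 ≠ ⊤`
  obtain ⟨x₀, hx₀⟩ := hIII W₀ A hpA (H56.card_torsion_le' (W₀⁄Qb) hp hp2).1
    (fun S hS => H56.prod_inv_dvd_prime' (W₀⁄Qb) A ha₁ ha₂ ha₃ ha₄ ha₆ hp hp2 S hS) N hN hN0 hN1
  have hV1 : AddSubgroup.toZModSubmodule p (torsE1 W₀ p A ha₁ ha₂ ha₃ ha₄ ha₆) ≠ ⊤ := by
    intro h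
    apply hx₀
    have : x₀ ∈ AddSubgroup.toZModSubmodule p (torsE1 W₀ p A ha₁ ha₂ ha₃ ha₄ ha₆) :=
      h ▸ Submodule.mem_top
    exact this
  set I : Set (Submodule.torsionBy ℤ (W₀⁄Qb).Point p →+ Submodule.torsionBy ℤ (W₀⁄Qb).Point p) :=
    {s | ∃ σ ∈ A.inertiaSubgroupIn ℚ, s = DistribSMul.toAddMonoidHom _ σ} with hI
  have hIN : ∀ s ∈ I, ∀ x ∈ N, s x ∈ N := by
    rintro s ⟨σ, -, rfl⟩ x hx
    exact hN σ x hx
  have key : (∀ s ∈ I, ∀ x ∈ N, s x = x) ∨ (∀ s ∈ I, ∀ x, s x - x ∈ N) := by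
    rcases hred with hΔ | ⟨h₃, h₆, h₄, hb₂⟩
    · refine filtration_dichotomy (V0 := ⊤) hcard hN0 hN1 le_top hV1 I hIN
        (fun _ _ _ => Submodule.mem_top) ?_
      rintro s ⟨σ, hσ, rfl⟩ x -
      exact hgood W₀ A ha₁ ha₂ ha₃ ha₄ ha₆ hΔ σ hσ _
    · refine filtration_dichotomy
        (V0 := AddSubgroup.toZModSubmodule p (torsE0 W₀ p A h₃ h₆ h₄ (b₂_mem W₀ A ha₁ ha₂)))
        hcard hN0 hN1 ?_ hV1 I hIN ?_ ?_
      · intro x hx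
        have hx' : H60.InE1 A (x : (W₀⁄Qb).Point) := hx
        show H31.InE0 A (x : (W₀⁄Qb).Point)
        rcases hx' with h0 | hx'
        · exact Or.inl h0
        · exact Or.inr fun hnu => hx' (A.nonunits_subset hnu)
      · rintro s ⟨σ, hσ, rfl⟩ x
        exact H27.inE0_smul_sub_rat W₀ A h₃ h₆ ha₁ ha₂ h₄ hb₂ hσ hp hp2 (nsmul_coe_torsion W₀ x)
      · rintro s ⟨σ, hσ, rfl⟩ x hx
        exact hE0 W₀ A h₃ h₆ ha₁ ha₂ h₄ hb₂ σ hσ _ hx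
  rcases key with key | key
  · exact Or.inl fun σ hσ x hx => key _ ⟨σ, hσ, rfl⟩ x hx
  · exact Or.inr fun σ hσ x => key _ ⟨σ, hσ, rfl⟩ x

end Fermat.Agent.S13.H76
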