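/-
S13, helper76 (backup of the final assembly): the frozen statement of S13 from the landed
packages (T: H56, D: H54, FR/transport: H86, L3: H27, (III): H61, S-ABS + LC: H76) and the three
leaves that are not yet on main when this file is written, as explicit hypotheses:

* `GoodLeaf`, `E0Leaf` (point-level leaves (c) of the local dichotomy);
* (IV): no nonzero Galois-fixed `p`-torsion point on the Frey curve.
-/
import Fermat.Agent.S13.H76.Assembly
import Fermat.Agent.S13.H76.LocalLC
import Fermat.Agent.S13.H54.Minkowski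
import Fermat.Agent.S13.H54.Global
import Fermat.Agent.S13.H61.AllE1

set_option autoImplicit false

open WeierstrassCurve WeierstrassCurve.Affine WeierstrassCurve.Affine.Point

namespace Fermat.Agent.S13.H76

open Fermat.Agent.S05

local notation "Qb" => AlgebraicClosure ℚ

theorem baseChange_Δ_ne_zero {W : Affine ℚ} (h : W.Δ ≠ 0) : (W⁄Qb).Δ ≠ 0 := by
  show (W.map (algebraMap ℚ Qb)).Δ ≠ 0
  rw [WeierstrassCurve.map_Δ]
  exact fun h' => h ((map_eq_zero _).mp h')

/-- (III) in the shape consumed by `lc1_of_leaves`, from helper61's landed theorem. -/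
theorem iiiLeaf {p : ℕ} (hp : p.Prime) (hp2 : p ≠ 2) : IIILeaf p :=
  fun W₀ A hpA hfin hT2 N hN hN0 hN1 =>
    H61.exists_torsion_not_inE1 W₀ hp hp2 A hpA hfin hT2 N hN hN0 hN1

/-- The frozen S13 statement from the leaves (c) and (IV). -/
theorem result_of_leaves (P : FreyPackage) (hgood : GoodLeaf) (hE0 : E0Leaf)
    (hIV : ¬ ∃ R : (P.freyCurve⁄Qb).Point,
      R ≠ 0 ∧ P.p • R = 0 ∧ ∀ σ : Qb ≃ₐ[ℚ] Qb, σ • R = R)
    (hred : ¬ GaloisRepIsIrreducible (K := AlgebraicClosure ℚ) ℚ P.freyCurve P.p) :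
    HasGaloisStableCofixedLine (K := AlgebraicClosure ℚ) ℚ P.freyCurve P.p := by
  have hp2 : P.p ≠ 2 := by have := P.hp5; omega
  have hΔ := H86.frey_Δ_ne_zero P
  exact result_of_skeleton P (fun W₀ A => H86.LocalFields W₀ A)
    (H56.exists_torsion_point _ (baseChange_Δ_ne_zero hΔ) P.pp hp2)
    (H56.card_torsion_le' _ P.pp hp2).1
    H54.exists_liesOverPrime H54.eq_top_of_inertia_le hIV hΔ (H86.freyTranslate_Δ_ne_zero P)
    (fun A hA => H86.frey_localFields_two P A hA)
    (fun A hA => H86.frey_localFields_p P A hA)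
    (lc1_of_leaves P.pp hp2 hgood hE0 (iiiLeaf P.pp hp2))
    (lc2_of_leaves P.pp hp2 hgood hE0)
    hred

end Fermat.Agent.S13.H76
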